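/-
Project ONE MACHINE (S43), block [F] EASY (architect helper1): DEFINITION-FREE ADAPTERS for the cells
(Z7) [TORIC] and (Z8) [TORIC-W] at a GENERAL exponent `m` (`m ≠ 0`, `gcd(m, 6) = 1`).

The geometric owners prove the toric identities for classes `z ∈ J₀(M q)[m]` fixed by inertia with the FOUR
vanishing hypotheses `ν z = 0`, `ν (W_q z) = 0`, `δ z = 0`, `δ (W_q z) = 0` stated separately, and with a
natural-number scalar.  GeoSeam's cells `twf_Toric_stmt` / `twf_ToricW_stmt` assume `W_q z = ± z`,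
`ν z = 0`, `δ z = 0` instead.  By additivity of `ν` on `J[m]` and of `δ` on `J[m] ∩ ker ν` the second form
follows from the first:

* `twf_nu_delta_W`      : `W z = ± z`, `ν z = 0`, `δ z = 0` ⟹ `ν (W z) = 0 ∧ δ (W z) = 0`;
* `twf_toric_of_sep`    : separate-hypotheses (Z7) (`φ • (φ • z) = (q ^ 2) • z`, ℕ-scalar) ⟹
                          `twf_Toric_stmt A M hqM m`;
* `twf_toricW_of_sep`   : separate-hypotheses (Z8) (`φ • z + q • W z = 0`) ⟹ `twf_ToricW_stmt A M hqM m (-1)`;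
* `twf_toricW_of_sep'`  : the same with conclusion `φ • z = q • W z` ⟹ `twf_ToricW_stmt A M hqM m 1`.
Prefix `twf_`.
-/
import Mathlib
import Fermat.Agent.TW.Easy.GeoSeam

set_option autoImplicit false
set_option linter.unusedSectionVars false
set_option linter.unusedVariables false
set_option linter.style.haveILetI false
set_option synthInstance.maxHeartbeats 400000
set_option maxHeartbeats 1000000

noncomputable section

namespace Fermat.Agent.TW

open ModularCurve AlgebraicCurve IsLocalRing Fermat.Agent.JT3 Fermat.Agent.S35 Fermat.Agent.SS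
  Fermat.Agent.S24 Fermat.Agent.S44 Fermat.Agent.S43

local notation "Qb" => AlgebraicClosure ℚ
local notation "GQ" => (AlgebraicClosure ℚ ≃ₐ[ℚ] AlgebraicClosure ℚ)

variable (A : ValuationSubring Qb) {q : ℕ} [hq : Fact q.Prime] (hA : A.LiesOverPrime q)
  (M : ℕ) [NeZero M] [NeZero q] [NeZero (M * q)] (hqM : ¬ q ∣ M) (hq2 : q ≠ 2)
  {m : ℕ} (hm0 : m ≠ 0) (hm6 : Nat.Coprime m 6)

include hA hq2 hm0 hm6

/-- `W_q z = ± z`, `ν z = 0`, `δ z = 0` ⟹ `ν (W_q z) = 0` and `δ (W_q z) = 0`. -/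
theorem twf_nu_delta_W {z : JZero (M * q)} (hz : m • z = 0)
    (hW : s44w_WJ M q hq.out hqM z = z ∨ s44w_WJ M q hq.out hqM z = -z)
    (hν : twfr_nu A M q hq.out hqM m z = 0) (hδ : twfr_delta A M q m z = 0) :
    twfr_nu A M q hq.out hqM m (s44w_WJ M q hq.out hqM z) = 0 ∧
      twfr_delta A M q m (s44w_WJ M q hq.out hqM z) = 0 := by
  have hνn : twfr_nu A M q hq.out hqM m (-z) = 0 := by
    rw [twf_add_neg (twf_torsSub M q m) (twfr_nu A M q hq.out hqM m)
      (fun z hz z' hz' => twfr_nu_add A hA M hqM hm0 hz hz') z hz, hν, neg_zero]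
  have hδn : twfr_delta A M q m (-z) = 0 := by
    rw [twf_add_neg (twf_kerNu M q hqM A hA hm0) (twfr_delta A M q m)
      (fun z hz z' hz' => twfr_delta_add_of_nu A hA M hqM hq2 hm0 hm6 hz.1 hz'.1 hz.2 hz'.2)
      z ⟨hz, hν⟩, hδ, neg_zero]
  rcases hW with h | h <;> rw [h]
  · exact ⟨hν, hδ⟩
  · exact ⟨hνn, hδn⟩

/-- **(Z7) adapter**: the separate-hypotheses form (helper20's `twft_ToricAt A φ M hqM m`, for every
Frobenius `φ`) gives GeoSeam's cell `twf_Toric_stmt A M hqM m`. -/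
theorem twf_toric_of_sep
    (hT : ∀ φ : GQ, A.IsFrobeniusAt φ q → ∀ z : JZero (M * q), m • z = 0 →
      (∀ s ∈ A.inertiaSubgroupIn ℚ, s • z = z) →
      twfr_nu A M q hq.out hqM m z = 0 →
      twfr_nu A M q hq.out hqM m (s44w_WJ M q hq.out hqM z) = 0 →
      twfr_delta A M q m z = 0 → twfr_delta A M q m (s44w_WJ M q hq.out hqM z) = 0 →
      φ • (φ • z) = (q ^ 2) • z) :
    twf_Toric_stmt A M hqM m := by
  intro φ hφ z hz hfix hW hν hδ
  obtain ⟨hνW, hδW⟩ := twf_nu_delta_W A hA M hqM hq2 hm0 hm6 hz hW hν hδ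
  rw [hT φ hφ z hz hfix hν hνW hδ hδW]
  norm_cast

/-- **(Z8) adapter, sign `-1`**: the separate-hypotheses form `φ z + q W_q z = 0` gives GeoSeam's cell
`twf_ToricW_stmt A M hqM m (-1)`. -/
theorem twf_toricW_of_sep
    (hT : ∀ φ : GQ, A.IsFrobeniusAt φ q → ∀ z : JZero (M * q), m • z = 0 →
      (∀ s ∈ A.inertiaSubgroupIn ℚ, s • z = z) →
      twfr_nu A M q hq.out hqM m z = 0 →
      twfr_nu A M q hq.out hqM m (s44w_WJ M q hq.out hqM z) = 0 →
      twfr_delta A M q m z = 0 → twfr_delta A M q m (s44w_WJ M q hq.out hqM z) = 0 →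
      φ • z + q • s44w_WJ M q hq.out hqM z = 0) :
    twf_ToricW_stmt A M hqM m (-1) := by
  intro φ hφ z hz hfix hW hν hδ
  obtain ⟨hνW, hδW⟩ := twf_nu_delta_W A hA M hqM hq2 hm0 hm6 hz hW hν hδ
  have h := hT φ hφ z hz hfix hν hνW hδ hδW
  rw [eq_neg_of_add_eq_zero_left h, neg_one_mul, neg_smul, natCast_zsmul]

/-- **(Z8) adapter, sign `+1`**: the separate-hypotheses form `φ z = q W_q z` gives GeoSeam's cell
`twf_ToricW_stmt A M hqM m 1`. -/
theorem twf_toricW_of_sep'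
    (hT : ∀ φ : GQ, A.IsFrobeniusAt φ q → ∀ z : JZero (M * q), m • z = 0 →
      (∀ s ∈ A.inertiaSubgroupIn ℚ, s • z = z) →
      twfr_nu A M q hq.out hqM m z = 0 →
      twfr_nu A M q hq.out hqM m (s44w_WJ M q hq.out hqM z) = 0 →
      twfr_delta A M q m z = 0 → twfr_delta A M q m (s44w_WJ M q hq.out hqM z) = 0 →
      φ • z = q • s44w_WJ M q hq.out hqM z) :
    twf_ToricW_stmt A M hqM m 1 := by
  intro φ hφ z hz hfix hW hν hδ
  obtain ⟨hνW, hδW⟩ := twf_nu_delta_W A hA M hqM hq2 hm0 hm6 hz hW hν hδ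
  rw [hT φ hφ z hz hfix hν hνW hδ hδW, one_mul, natCast_zsmul]

end Fermat.Agent.TW
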