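/-
Project ONE MACHINE (S43), block [F] EASY (architect helper1): ONE MORE DEFINITION-FREE ADAPTER for the
cell (Z8) [TORIC-W] at a general exponent `m`: the shape delivered by the function-field-to-classes step
(`W (φ z) + q z = 0`, helper15's `class_of_ff`, (Z8) shape) gives GeoSeam's `twf_ToricW_stmt … (-1)`.

* `twf_w_swap`            : `m z = 0`, `W (φ z) + q z = 0` ⟹ `φ z + q W z = 0`
                            (`W` commutes with Galois, `W² = 1` on `J[m]`);
* `twf_toricW_of_sep_comm`: separate-hypotheses (Z8) in the shape `W (φ • z) + q • z = 0` ⟹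
                            `twf_ToricW_stmt A M hqM m (-1)`.
Prefix `twf_`.
-/
import Mathlib
import Fermat.Agent.TW.Easy.Asm.ToricAdapter

set_option autoImplicit false
set_option linter.unusedSectionVars false
set_option linter.unusedVariables false
set_option linter.style.haveILetI false
set_option synthInstance.maxHeartbeats 400000
set_option maxHeartbeats 1000000

noncomputable section

namespace Fermat.Agent.TW

open ModularCurve AlgebraicCurve IsLocalRing Fermat.Agent.JT3 Fermat.Agent.S35 Fermat.Agent.SS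
  Fermat.Agent.S24 Fermat.Agent.S44 Fermat.Agent.S43

local notation "Qb" => AlgebraicClosure ℚ
local notation "GQ" => (AlgebraicClosure ℚ ≃ₐ[ℚ] AlgebraicClosure ℚ)

/-- `W (φ z) + q z = 0` ⟹ `φ z + q W z = 0` on `J[m]`. -/
theorem twf_w_swap (M q : ℕ) [NeZero M] [NeZero q] [NeZero (M * q)] (hq : q.Prime) (hqM : ¬ q ∣ M)
    {m : ℕ} (hm0 : m ≠ 0) (φ : GQ) (z : JZero (M * q)) (hz : m • z = 0) (Q : ℕ)
    (h : s44w_WJ M q hq hqM (φ • z) + Q • z = 0) :
    φ • z + Q • s44w_WJ M q hq hqM z = 0 := by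
  have hφz : m • (φ • z) = 0 := by
    have e := map_nsmul (DistribSMul.toAddMonoidHom (JZero (M * q)) φ) m z
    rw [DistribSMul.toAddMonoidHom_apply, DistribSMul.toAddMonoidHom_apply, hz,
      smul_zero] at e
    exact e.symm
  have h2 := congrArg (s44w_WJ M q hq hqM) h
  rw [map_add, map_nsmul, map_zero, twf_w_WJ_WJ M q hq hqM m hm0 (φ • z) hφz] at h2
  exact h2

variable (A : ValuationSubring Qb) {q : ℕ} [hq : Fact q.Prime] (hA : A.LiesOverPrime q)
  (M : ℕ) [NeZero M] [NeZero q] [NeZero (M * q)] (hqM : ¬ q ∣ M) (hq2 : q ≠ 2)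
  {m : ℕ} (hm0 : m ≠ 0) (hm6 : Nat.Coprime m 6)

include hA hq2 hm0 hm6

/-- **(Z8) adapter, `class_of_ff` shape**: the separate-hypotheses form `W_q (φ z) + q z = 0` gives
GeoSeam's cell `twf_ToricW_stmt A M hqM m (-1)`. -/
theorem twf_toricW_of_sep_comm
    (hT : ∀ φ : GQ, A.IsFrobeniusAt φ q → ∀ z : JZero (M * q), m • z = 0 →
      (∀ s ∈ A.inertiaSubgroupIn ℚ, s • z = z) →
      twfr_nu A M q hq.out hqM m z = 0 →
      twfr_nu A M q hq.out hqM m (s44w_WJ M q hq.out hqM z) = 0 →
      twfr_delta A M q m z = 0 → twfr_delta A M q m (s44w_WJ M q hq.out hqM z) = 0 →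
      s44w_WJ M q hq.out hqM (φ • z) + q • z = 0) :
    twf_ToricW_stmt A M hqM m (-1) :=
  twf_toricW_of_sep A hA M hqM hq2 hm0 hm6 (fun φ hφ z hz hfix h1 h2 h3 h4 =>
    twf_w_swap M q hq.out hqM hm0 φ z hz q (hT φ hφ z hz hfix h1 h2 h3 h4))

end Fermat.Agent.TW
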