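/-
Project ONE MACHINE (S43), block [F] EASY (architect helper1): ASSEMBLY OF MAZUR'S PRINCIPLE, cell (Z6).

The cells of `TW/Easy/GeoSeam.lean` from their owners' theorems:
* `twf_coprime_six`        : a prime `p ≥ 5` is coprime to `6`;
* `twf_resHeckeAll_of_star`: (Z6) `twf_ResHeckeAll_stmt` from helper12's `twfk_delta_hecke` and (★★)
                             (`twfk_Star`);
* **`twf_resHeckeAll`**    : (Z6) `twf_ResHeckeAll_stmt`, UNCONDITIONAL (helper15's `twfq_delta_hecke`).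
Prefix `twf_`.
-/
import Mathlib
import Fermat.Agent.TW.Easy.GeoSeam
import Fermat.Agent.TW.Easy.ResHecke
import Fermat.Agent.TW.Easy.ResHecke.Main

set_option autoImplicit false
set_option linter.unusedSectionVars false
set_option linter.unusedVariables false
set_option linter.style.haveILetI false
set_option synthInstance.maxHeartbeats 400000
set_option maxHeartbeats 1000000

noncomputable section

namespace Fermat.Agent.TW

open ModularCurve AlgebraicCurve IsLocalRing Fermat.Agent.JT3 Fermat.Agent.S35 Fermat.Agent.SS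
  Fermat.Agent.S24 Fermat.Agent.S44 Fermat.Agent.S43

local notation "Qb" => AlgebraicClosure ℚ

/-- a prime `p ≥ 5` is coprime to `6`. -/
theorem twf_coprime_six {p : ℕ} (hp : p.Prime) (hp5 : 5 ≤ p) : Nat.Coprime p 6 := by
  have h2 : Nat.Coprime p 2 := (Nat.Prime.coprime_iff_not_dvd hp).2 (fun h => by
    have := Nat.le_of_dvd (by norm_num) h; omega)
  have h3 : Nat.Coprime p 3 := (Nat.Prime.coprime_iff_not_dvd hp).2 (fun h => by
    have := Nat.le_of_dvd (by norm_num) h; omega)
  exact Nat.Coprime.mul_right h2 h3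

/-- **(★★) for all `(M, q, p, A, ℓ)`** (helper11's cell). -/
def twf_StarAll_stmt : Prop :=
  ∀ (M q : ℕ) [NeZero M] [NeZero q] [NeZero (M * q)] [Fact q.Prime] (_ : ¬ q ∣ M) (p : ℕ),
    q ≠ 2 → p.Prime → 5 ≤ p → p ≠ q → ∀ A : ValuationSubring Qb, A.LiesOverPrime q →
      ∀ ℓ : Nat.Primes, ¬ (ℓ : ℕ) ∣ M * q → twfk_Star A M q p ℓ

/-- **(Z6)** from (★★) and helper12's `twfk_delta_hecke`. -/
theorem twf_resHeckeAll_of_star (hS : twf_StarAll_stmt) : twf_ResHeckeAll_stmt := by
  intro M q _ _ _ hq hqM p hq2 hp hp5 hpq A hA ℓ hℓN _ z hz hν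
  exact twfk_delta_hecke A hA M hqM hq2 hp.ne_zero (twf_coprime_six hp hp5) ℓ hℓN
    (hS M q hqM p hq2 hp hp5 hpq A hA ℓ hℓN) hz hν

/-- **(Z6) is closed** (helper15's `twfq_delta_hecke`, helper12's `twfk_delta_hecke`). -/
theorem twf_resHeckeAll : twf_ResHeckeAll_stmt := by
  intro M q _ _ _ hq hqM p hq2 hp hp5 hpq A hA ℓ hℓN _ z hz hν
  exact twfq_delta_hecke A hA M hqM hq2 hp.ne_zero (twf_coprime_six hp hp5) ℓ hℓN hz hν

end Fermat.Agent.TW
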