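/-
Project ONE MACHINE (S43), block [F] EASY (architect helper1): the cells (Z3) + (Z4) + (Z6) AT A GENERAL
EXPONENT `m` (`m ≠ 0`, `gcd(m, 6) = 1`; in use: `m = p ^ n` for [RO]), in the shapes of GeoSeam.lean.

* `twf_compCells_gen` : `twf_CompCells A M hqM m ∅ (twfh_k …) (twfh_B …)` from helper16's `twfm_mono_gen`
                        ((Z3), any exponent) and helper11's `twfh_k_isUnit`, `twfh_heckeRes`, `twfh_BEis`;
* `twf_resHecke_gen`  : `twf_ResHecke_stmt A M hqM m` from helper15's `twfq_delta_hecke`.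
Prefix `twf_`.
-/
import Mathlib
import Fermat.Agent.TW.Easy.GeoSeam
import Fermat.Agent.TW.Easy.Mono.MainGen
import Fermat.Agent.TW.Easy.HeckeRes.Main
import Fermat.Agent.TW.Easy.ResHecke.Main

set_option autoImplicit false
set_option linter.unusedSectionVars false
set_option linter.unusedVariables false
set_option linter.style.haveILetI false
set_option synthInstance.maxHeartbeats 400000
set_option maxHeartbeats 1000000

noncomputable section

namespace Fermat.Agent.TW

open ModularCurve AlgebraicCurve IsLocalRing Fermat.Agent.JT3 Fermat.Agent.S35 Fermat.Agent.SS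
  Fermat.Agent.S24 Fermat.Agent.S44 Fermat.Agent.S43

local notation "Qb" => AlgebraicClosure ℚ

variable (A : ValuationSubring Qb) {q : ℕ} [hq : Fact q.Prime] (hA : A.LiesOverPrime q)
  (M : ℕ) [NeZero M] [NeZero q] [NeZero (M * q)] (hqM : ¬ q ∣ M) (hq2 : q ≠ 2)
  {m : ℕ} (hm0 : m ≠ 0) (hm6 : Nat.Coprime m 6)

include hA hq2 hm0 hm6

/-- **(Z3) + (Z4)** at a general exponent `m`. -/
theorem twf_compCells_gen :
    twf_CompCells A M hqM m ∅ (twfh_k A M q hq.out hqM m) (twfh_B A hA M hqM m) := by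
  have hq2' : ¬ 2 ∣ q := fun h => hq2 ((Nat.prime_dvd_prime_iff_eq Nat.prime_two hq.out).mp h).symm
  exact ⟨fun i => twfh_k_isUnit A hA M hqM hq2 hm6 i,
    fun z hz hfix => twfm_mono_gen A hA M hqM hq2' hm0 hm6 hz hfix,
    fun ℓ hℓN _ z hz => twfh_heckeRes A hA M hqM hq2 hm0 hm6 ℓ hℓN z hz,
    fun ℓ hℓN _ => twfh_BEis A hA M hqM hq2 hm6 ℓ hℓN⟩

/-- **(Z6)** at a general exponent `m`. -/
theorem twf_resHecke_gen : twf_ResHecke_stmt A M hqM m :=
  fun ℓ hℓN _ z hz hν => twfq_delta_hecke A hA M hqM hq2 hm0 hm6 ℓ hℓN hz hν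

end Fermat.Agent.TW
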