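/-
Project ONE MACHINE (S43), block [F] EASY (architect helper1): THE CELLS OF [RO] AND OF STAGED MAZUR FROM
THE SINGLE PROP `twft_Toric_stmt` (helper20's (Z7), TW/Easy/Toric/Stmt.lean).

* `twf_coprime_six_pow` : `p` prime, `5 ≤ p` ⟹ `Nat.Coprime (p ^ n) 6`;
* `twf_compPow`         : `twfo_CompPow_stmt`       ((Z3)+(Z4) at the exponents `p ^ n`; `twf_compCells_gen`);
* `twf_resHeckePow`     : `twfo_ResHeckePow_stmt`   ((Z6) at the exponents `p ^ n`; `twf_resHecke_gen`);
* `twf_toric_cell_of`   : `twft_Toric_stmt → twf_Toric_stmt A M hqM m` for every admissible `m`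
                          (`twf_toric_of_sep`);
* `twf_toricPow_of`     : `twft_Toric_stmt → twfo_ToricPow_stmt`;
* `twf_toricAll_of`     : `twft_Toric_stmt → twf_ToricAll_stmt`;
* `twf_readoff_of`      : `twft_Toric_stmt → s43t_ReadOffFrey2_stmt`   (helper27's `twfo_readoff`);
* `twf_mazurStaged_of`  : `twft_Toric_stmt → twf_MazurStaged_stmt`     (`twf_mazur_staged_of_cells`).
Prefix `twf_`.
-/
import Mathlib
import Fermat.Agent.TW.Easy.Asm.CompGen
import Fermat.Agent.TW.Easy.Asm.CompAll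
import Fermat.Agent.TW.Easy.Asm.ResHeckeAll
import Fermat.Agent.TW.Easy.Asm.ToricAdapter
import Fermat.Agent.TW.Easy.Toric.Stmt
import Fermat.Agent.TW.Easy.RO.Main

set_option autoImplicit false
set_option linter.unusedSectionVars false
set_option linter.unusedVariables false
set_option linter.style.haveILetI false
set_option synthInstance.maxHeartbeats 400000
set_option maxHeartbeats 1000000

noncomputable section

namespace Fermat.Agent.TW

open ModularCurve AlgebraicCurve IsLocalRing Fermat.Agent.JT3 Fermat.Agent.S35 Fermat.Agent.SS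
  Fermat.Agent.S24 Fermat.Agent.S44 Fermat.Agent.S43

local notation "Qb" => AlgebraicClosure ℚ
local notation "GQ" => (AlgebraicClosure ℚ ≃ₐ[ℚ] AlgebraicClosure ℚ)

/-- `p` prime, `5 ≤ p` ⟹ `p ^ n` is prime to `6`. -/
theorem twf_coprime_six_pow {p : ℕ} (hp : p.Prime) (hp5 : 5 ≤ p) (n : ℕ) : Nat.Coprime (p ^ n) 6 :=
  Nat.Coprime.pow_left n (twf_coprime_six hp hp5)

/-- **(Z3) + (Z4) at the exponents `p ^ n`.** -/
theorem twf_compPow : twfo_CompPow_stmt := by
  intro M q _ _ _ hq hqM p n hq2 hp hp5 hpq hn A hA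
  exact ⟨∅, _, _, twf_compCells_gen A hA M hqM hq2 (pow_ne_zero n hp.ne_zero)
    (twf_coprime_six_pow hp hp5 n)⟩

/-- **(Z6) at the exponents `p ^ n`.** -/
theorem twf_resHeckePow : twfo_ResHeckePow_stmt := by
  intro M q _ _ _ hq hqM p n hq2 hp hp5 hpq hn A hA
  exact twf_resHecke_gen A hA M hqM hq2 (pow_ne_zero n hp.ne_zero) (twf_coprime_six_pow hp hp5 n)

/-- **(Z7) as a GeoSeam cell** at every admissible exponent, from helper20's `twft_Toric_stmt`. -/
theorem twf_toric_cell_of (hT : twft_Toric_stmt) (A : ValuationSubring Qb) {q : ℕ}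
    [hq : Fact q.Prime] (hA : A.LiesOverPrime q) (M : ℕ) [NeZero M] [NeZero q] [NeZero (M * q)]
    (hqM : ¬ q ∣ M) (hq2 : q ≠ 2) {m : ℕ} (hm0 : m ≠ 0) (hm6 : Nat.Coprime m 6) (hqm : ¬ q ∣ m) :
    twf_Toric_stmt A M hqM m :=
  twf_toric_of_sep A hA M hqM hq2 hm0 hm6
    (fun φ hφ => hT A hA φ hφ M hqM hq2 m hm0 hm6 hqm)

/-- **(Z7) at the exponents `p ^ n`.** -/
theorem twf_toricPow_of (hT : twft_Toric_stmt) : twfo_ToricPow_stmt := by
  intro M q _ _ _ hq hqM p n hq2 hp hp5 hpq hn A hA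
  refine twf_toric_cell_of hT A hA M hqM hq2 (pow_ne_zero n hp.ne_zero)
    (twf_coprime_six_pow hp hp5 n) ?_
  intro h
  exact hpq ((Nat.prime_dvd_prime_iff_eq hq.out hp).mp (hq.out.dvd_of_dvd_pow h)).symm

/-- **(Z7) at the prime exponents.** -/
theorem twf_toricAll_of (hT : twft_Toric_stmt) : twf_ToricAll_stmt := by
  intro M q _ _ _ hq hqM p hq2 hp hp5 hpq A hA
  refine twf_toric_cell_of hT A hA M hqM hq2 hp.ne_zero (twf_coprime_six hp hp5) ?_
  intro h
  exact hpq ((Nat.prime_dvd_prime_iff_eq hq.out hp).mp h).symm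

/-- **[RO] READ-OFF (Frey-specific, v2) from (Z7).** -/
theorem twf_readoff_of (hT : twft_Toric_stmt) : s43t_ReadOffFrey2_stmt :=
  twfo_readoff twf_compPow twf_resHeckePow (twf_toricPow_of hT)

/-- **STAGED MAZUR from (Z7).** -/
theorem twf_mazurStaged_of (hT : twft_Toric_stmt) : twf_MazurStaged_stmt :=
  twf_mazur_staged_of_cells twf_compAll twf_resHeckeAll (twf_toricAll_of hT)

end Fermat.Agent.TW
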