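/-
Project ONE MACHINE (S43), block [F] EASY (architect helper1): THE CLOSED [F] SEAMS THAT FOLLOW FROM (Z7).

With helper20's `twft_toric : twft_Toric_stmt` (TW/Easy/Toric/Main.lean):

* `twf_readoff`     : `s43t_ReadOffFrey2_stmt`   — the Frey-specific READ-OFF seam of S43/Top/HardSeams3.lean
                      (helper27's `twfo_readoff` fed with the cells at the exponents `p ^ n`);
* `twf_toricAll`    : `twf_ToricAll_stmt`        — (Z7) as GeoSeam cells at the prime exponents;
* `twf_toricPow`    : `twfo_ToricPow_stmt`       — (Z7) at the exponents `p ^ n`;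
* `twf_mazurStaged` : `twf_MazurStaged_stmt`     — Mazur's principle for `q` not hard and `p ∤ q + 1`.
Prefix `twf_`.
-/
import Mathlib
import Fermat.Agent.TW.Easy.Asm.ROCells
import Fermat.Agent.TW.Easy.Toric.Main

set_option autoImplicit false

noncomputable section

namespace Fermat.Agent.TW

open Fermat.Agent.S43

/-- **[RO] READ-OFF (Frey-specific, v2): CLOSED.** -/
theorem twf_readoff : s43t_ReadOffFrey2_stmt := twf_readoff_of twft_toric

/-- **(Z7) at the prime exponents, as GeoSeam cells.** -/
theorem twf_toricAll : twf_ToricAll_stmt := twf_toricAll_of twft_toric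

/-- **(Z7) at the exponents `p ^ n`.** -/
theorem twf_toricPow : twfo_ToricPow_stmt := twf_toricPow_of twft_toric

/-- **STAGED MAZUR: CLOSED.** -/
theorem twf_mazurStaged : twf_MazurStaged_stmt := twf_mazurStaged_of twft_toric

end Fermat.Agent.TW
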