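/-
Project ONE MACHINE (S43), block [F] EASY (architect helper1): **MAZUR'S PRINCIPLE, CLOSED.**

  `twf_mazur : s43t_Mazur_stmt`

(the [F-Maz] seam of S43/Top: for the Frey package `P`, a conductor level `N`, an odd prime `q ≠ p`, `q ∣ N`,
`p ∤ N`, `ρ̄` irreducible, modular of level `N` and unramified at `q`, `q` NOT hard ⟹ modular of a level
`M ∣ N` with `q ∤ M`), from the cells

* (Z3) + (Z4) `twf_compAll`        (helper16, helper11),
* (Z6)        `twf_resHeckeAll`    (helper12, helper15; wiring helper1),
* (Z8)        `twfj_toricWAll`     (helper20's normal form, helper12/helper10's swap toric core, helper15's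
                                    class-of-function-field step, helper16's J-level glue),

through `twf_mazur_of_cells` (GeoSeam.lean: (Z5) EIS ⟹ `ν = 0`, (F2) level from `δ ≠ 0`, (Z9)/(Z10) endgame
`φ = -q W_q` scalar on the `W_q`-eigen copy ⟹ `q` hard).
Prefix `twf_`.
-/
import Mathlib
import Fermat.Agent.TW.Easy.Asm.ReadOff
import Fermat.Agent.TW.Easy.ToricW.MainJ

set_option autoImplicit false

noncomputable section

namespace Fermat.Agent.TW

open Fermat.Agent.S43

/-- **(Z8) for all `(M, q, p, A)`: CLOSED** (alias of helper16's `twfj_toricWAll`). -/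
theorem twf_toricWAll : twf_ToricWAll_stmt := twfj_toricWAll

/-- **MAZUR'S PRINCIPLE ([F-Maz]): CLOSED.** -/
theorem twf_mazur : s43t_Mazur_stmt :=
  twf_mazur_of_cells twf_compAll twf_resHeckeAll twfj_toricWAll

end Fermat.Agent.TW
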