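/-
Project ONE MACHINE (S43), block [F] EASY: ASSEMBLY OF MAZUR'S PRINCIPLE, cells (Z3) + (Z4) (helper16).

**`twf_compAll : twf_CompAll_stmt`** (the first hypothesis of helper1's `twf_mazur_of_cells`,
TW/Easy/GeoSeam.lean), UNCONDITIONAL: for every `(M, q, p, A)` (`q` odd prime, `q ∤ M`, `p ≥ 5` prime,
`p ≠ q`, `A ∣ q`) the component-group cells `twf_CompCells A M hqM p ∅ k B` hold with

* `k := twfh_k A M q hq hqM p`     (helper11's shared weights `(ord_Q ū mod p)⁻¹`),
* `B := twfh_B A hA M hqM p`       (helper11's operator),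
* `k_unit`   := `twfh_k_isUnit`    (helper11),
* `mono`     := `twfm_mono`        (helper16, (Z3) [MONO-tame]; `twfm_k = twfh_k` by `rfl`),
* `heckeRes` := `twfh_heckeRes`,  `B_eis` := `twfh_BEis`   (helper11, (Z4)).
Prefix `twf_`.
-/
import Mathlib
import Fermat.Agent.TW.Easy.GeoSeam
import Fermat.Agent.TW.Easy.Mono.Main
import Fermat.Agent.TW.Easy.HeckeRes.Main

set_option autoImplicit false
set_option linter.unusedSectionVars false
set_option linter.unusedVariables false
set_option linter.style.haveILetI false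
set_option synthInstance.maxHeartbeats 400000
set_option maxHeartbeats 1000000

noncomputable section

namespace Fermat.Agent.TW

open ModularCurve AlgebraicCurve IsLocalRing Fermat.Agent.JT3 Fermat.Agent.S35 Fermat.Agent.SS
  Fermat.Agent.S24 Fermat.Agent.S44 Fermat.Agent.S43

local notation "Qb" => AlgebraicClosure ℚ

/-- the two spellings of the weights agree. -/
theorem twf_k_eq (A : ValuationSubring Qb) (M : ℕ) [NeZero M] (q : ℕ) [NeZero q] (hq : q.Prime)
    [NeZero (M * q)] (hqM : ¬ q ∣ M) (m : ℕ) :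
    twfm_k A M q hq hqM m = twfh_k A M q hq hqM m := rfl

/-- **(Z3) + (Z4) are closed**: `twf_CompAll_stmt`. -/
theorem twf_compAll : twf_CompAll_stmt := by
  intro M q _ _ _ hq hqM p hq2 hp hp5 hpq A hA
  haveI : Fact p.Prime := ⟨hp⟩
  have hm6 : Nat.Coprime p 6 := by
    have h2 : Nat.Coprime p 2 := (Nat.Prime.coprime_iff_not_dvd hp).2 (fun h => by
      have := Nat.le_of_dvd (by norm_num) h; omega)
    have h3 : Nat.Coprime p 3 := (Nat.Prime.coprime_iff_not_dvd hp).2 (fun h => by
      have := Nat.le_of_dvd (by norm_num) h; omega)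
    exact Nat.Coprime.mul_right h2 h3
  have hq2' : ¬ 2 ∣ q := fun h => hq2 ((Nat.prime_dvd_prime_iff_eq Nat.prime_two hq.out).1 h).symm
  refine ⟨∅, twfh_k A M q hq.out hqM p, twfh_B A hA M hqM p, ?_, ?_, ?_, ?_⟩
  · exact fun i => twfh_k_isUnit A hA M hqM hq2 hm6 i
  · intro z hz hfix
    exact twfm_mono A hA M hqM hq2' hp5 hz hfix
  · intro ℓ hℓN _ z hz
    exact twfh_heckeRes A hA M hqM hq2 hp.ne_zero hm6 ℓ hℓN z hz
  · intro ℓ hℓN _
    exact twfh_BEis A hA M hqM hq2 hm6 ℓ hℓN

end Fermat.Agent.TW
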